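import Fermat.Agent.LT.T6.Spec

/-!
# Row LT, tower T6, sub-leaf T6.03 (`InstSplitC`) -- helper116, OFF-MAIN

`InstSplitC`: at a place `w` of `K'` over `v` with the same residue field (`absNorm w = absNorm v`)
and ramification index one (some element of `v` is not in `w ^ 2`), the completions `K_v` and
`K'_w` are isomorphic, compatibly with `K → K'` and with the valuations.

Proof.
1. `e = 1` gives `w (x) = v (x)` for `x ∈ K` (`valuation_liesOver`).
2. `f = 1`: `𝓞 K / v → 𝓞 K' / w` is injective between finite sets of the same cardinality, hence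
   bijective; with a common uniformiser this gives, by successive approximation, that `K` is
   `w`-adically dense in `K'`.
3. Two complete separated valued fields containing `K` densely with the same induced valuation
   are isomorphic (extension by uniform continuity in both directions).
-/

set_option autoImplicit false
set_option linter.unusedSectionVars false

open IsDedekindDomain NumberField WithZero Filter Uniformity Topology

namespace Fermat.Agent.LT.T6.H116

/-! ### Abstract part -/

section Abstract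

/-- The uniformity of a valued field with surjective `ℤᵐ⁰`-valued valuation, in terms of `ℤᵐ⁰`. -/
theorem unif_basis_h116 (A : Type) [Field A] [Valued A ℤᵐ⁰]
    (hs : Function.Surjective (Valued.v : A → ℤᵐ⁰)) :
    (𝓤 A).HasBasis (fun γ : ℤᵐ⁰ => γ ≠ 0)
      (fun γ => {p : A × A | Valued.v (p.2 - p.1) < γ}) := by
  refine (Valued.hasBasis_uniformity A ℤᵐ⁰).to_hasBasis ?_ ?_
  · intro γ' _
    refine ⟨MonoidWithZeroHom.ValueGroup₀.embedding γ'.1, ?_, ?_⟩
    · simp
    · intro p hp
      exact (Valuation.restrict_lt_iff_lt_embedding _).2 hp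
  · intro γ hγ
    obtain ⟨y, hy⟩ := hs γ
    have hy0 : (Valued.v : Valuation A ℤᵐ⁰).restrict y ≠ 0 := by
      have hyne : y ≠ 0 := by
        rintro rfl
        rw [map_zero] at hy
        exact hγ hy.symm
      simpa using hyne
    refine ⟨Units.mk0 _ hy0, trivial, ?_⟩
    intro p hp
    have hp' : (Valued.v : Valuation A ℤᵐ⁰).restrict (p.2 - p.1)
        < (Valued.v : Valuation A ℤᵐ⁰).restrict y := hp
    rw [Valuation.restrict_lt_iff] at hp'
    rw [hy] at hp'
    exact hp'

/-- Two complete valued fields in which a common field is densely embedded, with the same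
induced valuation, are isomorphic (compatibly with the embeddings and the valuations). -/
theorem completion_equiv_h116 {K A B : Type} [Field K] [Field A] [Field B]
    [Valued A ℤᵐ⁰] [Valued B ℤᵐ⁰] [CompleteSpace A] [CompleteSpace B]
    [T2Space A] [T2Space B]
    (hsA : Function.Surjective (Valued.v : A → ℤᵐ⁰))
    (hsB : Function.Surjective (Valued.v : B → ℤᵐ⁰))
    (a : K →+* A) (b : K →+* B) (ha : DenseRange a) (hb : DenseRange b)
    (hab : ∀ x : K, Valued.v (b x) = Valued.v (a x)) :
    ∃ i : A ≃+* B, (∀ x : K, i (a x) = b x) ∧ ∀ y : A, Valued.v (i y) = Valued.v y := by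
  -- the two induced uniformities on `K` agree
  have hU : comap (Prod.map a a) (𝓤 A) = comap (Prod.map b b) (𝓤 B) := by
    refine ((unif_basis_h116 A hsA).comap _).eq_of_same_basis ?_
    have := (unif_basis_h116 B hsB).comap (Prod.map b b)
    convert this using 2
    ext p
    simp only [Set.mem_preimage, Set.mem_ofPred_eq, Prod.map_snd, Prod.map_fst, ← map_sub, hab]
  let uK : UniformSpace K := UniformSpace.comap a inferInstance
  have uia : IsUniformInducing a := ⟨rfl⟩
  have uib : IsUniformInducing b := ⟨hU.symm⟩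
  let i : A →+* B := IsDenseInducing.extendRingHom uia ha uib.uniformContinuous
  let j : B →+* A := IsDenseInducing.extendRingHom uib hb uia.uniformContinuous
  have hi : ∀ x : K, i (a x) = b x := fun x =>
    IsDenseInducing.extend_eq (uia.isDenseInducing ha) uib.uniformContinuous.continuous x
  have hj : ∀ x : K, j (b x) = a x := fun x =>
    IsDenseInducing.extend_eq (uib.isDenseInducing hb) uia.uniformContinuous.continuous x
  have ci : Continuous i :=
    (uniformContinuous_uniformly_extend uia ha uib.uniformContinuous).continuous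
  have cj : Continuous j :=
    (uniformContinuous_uniformly_extend uib hb uia.uniformContinuous).continuous
  have hji : ∀ y : A, j (i y) = y := by
    intro y
    refine DenseRange.induction_on ha y ?_ ?_
    · exact isClosed_eq (cj.comp ci) continuous_id
    · intro x
      rw [hi, hj]
  have hij : ∀ y : B, i (j y) = y := by
    intro y
    refine DenseRange.induction_on hb y ?_ ?_
    · exact isClosed_eq (ci.comp cj) continuous_id
    · intro x
      rw [hj, hi]
  refine ⟨RingEquiv.ofRingHom i j (RingHom.ext hij) (RingHom.ext hji), hi, ?_⟩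
  intro y
  change Valued.v (i y) = Valued.v y
  rcases eq_or_ne y 0 with rfl | hy
  · simp
  have hiy : i y ≠ 0 := by
    intro h
    exact hy ((map_eq_zero i).1 h)
  have h1 : {z : A | Valued.v z = Valued.v y} ∈ 𝓝 y :=
    Valued.locally_const ((Valuation.ne_zero_iff _).2 hy)
  have h2 : {z : B | Valued.v z = Valued.v (i y)} ∈ 𝓝 (i y) :=
    Valued.locally_const ((Valuation.ne_zero_iff _).2 hiy)
  have h3 : i ⁻¹' {z : B | Valued.v z = Valued.v (i y)} ∈ 𝓝 y := ci.continuousAt h2
  obtain ⟨x, hz1, hz3⟩ := ha.mem_nhds (inter_mem h1 h3)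
  have hz1' : Valued.v (a x) = Valued.v y := hz1
  have hz3' : Valued.v (i (a x)) = Valued.v (i y) := hz3
  rw [← hz3', ← hz1', hi, hab]

variable {K K' : Type} [Field K] [Field K'] [Algebra K K']

/-- Successive approximation of integers: if residues and a uniformiser come from `K`, every
`W`-integer of `K'` is congruent to an element of `K` modulo any power of the uniformiser. -/
theorem approx_int_h116 (W : Valuation K' ℤᵐ⁰) (p : K)
    (hp : W (algebraMap K K' p) = exp (-1 : ℤ))
    (hres : ∀ z : K', W z ≤ 1 → ∃ a : K, W (z - algebraMap K K' a) < 1) (n : ℕ) :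
    ∀ z : K', W z ≤ 1 → ∃ x : K, W (z - algebraMap K K' x) ≤ exp (-(n : ℤ)) := by
  induction n with
  | zero =>
    intro z hz
    exact ⟨0, by simpa using hz⟩
  | succ n ih =>
    intro z hz
    obtain ⟨a, ha⟩ := hres z hz
    have hp0 : algebraMap K K' p ≠ 0 := by
      intro h
      rw [h, map_zero] at hp
      exact exp_ne_zero hp.symm
    have ha' : W (z - algebraMap K K' a) ≤ exp (-1 : ℤ) := by
      have := (lt_mul_exp_iff_le (x := W (z - algebraMap K K' a)) (y := exp (-1 : ℤ))
        exp_ne_zero).1 (by rw [← exp_add]; simpa using ha)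
      exact this
    have ht : W ((z - algebraMap K K' a) / algebraMap K K' p) ≤ 1 := by
      rw [map_div₀, hp]
      exact div_le_one_of_le₀ ha' zero_le
    obtain ⟨x', hx'⟩ := ih _ ht
    refine ⟨a + p * x', ?_⟩
    have e : z - algebraMap K K' (a + p * x')
        = algebraMap K K' p
          * ((z - algebraMap K K' a) / algebraMap K K' p - algebraMap K K' x') := by
      rw [map_add, map_mul]
      field_simp
      ring
    rw [e, map_mul, hp]
    calc exp (-1 : ℤ) * W ((z - algebraMap K K' a) / algebraMap K K' p - algebraMap K K' x')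
        ≤ exp (-1 : ℤ) * exp (-(n : ℤ)) := by gcongr
      _ = exp (-((n + 1 : ℕ) : ℤ)) := by
        rw [← exp_add]
        congr 1
        push_cast
        ring

/-- `K` is `W`-adically dense in `K'`. -/
theorem approx_h116 (W : Valuation K' ℤᵐ⁰) (p : K)
    (hp : W (algebraMap K K' p) = exp (-1 : ℤ))
    (hres : ∀ z : K', W z ≤ 1 → ∃ a : K, W (z - algebraMap K K' a) < 1) (y : K') (γ : ℤᵐ⁰)
    (hγ : γ ≠ 0) :
    ∃ x : K, W (y - algebraMap K K' x) < γ := by
  obtain ⟨n, hn⟩ := exists_exp_neg_natCast_lt hγ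
  have hp0 : algebraMap K K' p ≠ 0 := by
    intro h
    rw [h, map_zero] at hp
    exact exp_ne_zero hp.symm
  -- scale `y` into the integers
  obtain ⟨m, hm⟩ : ∃ m : ℕ, W (y * algebraMap K K' p ^ m) ≤ 1 := by
    rcases eq_or_ne y 0 with rfl | hy
    · exact ⟨0, by simp⟩
    · have hy0 : W y ≠ 0 := (Valuation.ne_zero_iff W).2 hy
      obtain ⟨k, hk⟩ : ∃ k : ℤ, W y = exp k := ⟨log (W y), (exp_log hy0).symm⟩
      refine ⟨k.toNat, ?_⟩
      rw [map_mul, map_pow, hp, hk, ← exp_nsmul, ← exp_add, ← exp_zero, exp_le_exp]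
      have := Int.self_le_toNat k
      simp only [nsmul_eq_mul]
      linarith
  obtain ⟨x, hx⟩ := approx_int_h116 W p hp hres (n + m) _ hm
  refine ⟨x / p ^ m, lt_of_le_of_lt ?_ hn⟩
  have e : y - algebraMap K K' (x / p ^ m)
      = (y * algebraMap K K' p ^ m - algebraMap K K' x) / algebraMap K K' p ^ m := by
    rw [map_div₀, map_pow]
    field_simp
  rw [e, map_div₀, map_pow, hp]
  rw [div_le_iff₀ (pow_pos exp_pos m)]
  calc W (y * algebraMap K K' p ^ m - algebraMap K K' x) ≤ exp (-((n + m : ℕ) : ℤ)) := hx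
    _ = exp (-(n : ℤ)) * exp (-1 : ℤ) ^ m := by
      rw [← exp_nsmul, ← exp_add]
      congr 1
      push_cast
      simp only [nsmul_eq_mul]
      ring

end Abstract

/-! ### Number fields -/

section NumberFields

variable {K K' : Type} [Field K] [NumberField K] [Field K'] [NumberField K'] [Algebra K K']
    (v : HeightOneSpectrum (𝓞 K)) (w : HeightOneSpectrum (𝓞 K'))

/-- `w` lies over `v`. -/
theorem liesOver_h116
    (hvw : ∀ x : 𝓞 K, x ∈ v.asIdeal ↔ algebraMap (𝓞 K) (𝓞 K') x ∈ w.asIdeal) :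
    w.asIdeal.LiesOver v.asIdeal := by
  constructor
  ext x
  rw [Ideal.under, Ideal.mem_comap]
  exact hvw x

/-- Ramification index one. -/
theorem ramIdx_eq_one_h116
    (hvw : ∀ x : 𝓞 K, x ∈ v.asIdeal ↔ algebraMap (𝓞 K) (𝓞 K') x ∈ w.asIdeal)
    (hπ : ∃ x : 𝓞 K, x ∈ v.asIdeal ∧ algebraMap (𝓞 K) (𝓞 K') x ∉ w.asIdeal ^ 2) :
    v.asIdeal.ramificationIdx' w.asIdeal = 1 := by
  by_contra hne
  have hle : Ideal.map (algebraMap (𝓞 K) (𝓞 K')) v.asIdeal ≤ w.asIdeal := by
    rw [Ideal.map_le_iff_le_comap]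
    intro x hx
    exact (hvw x).1 hx
  have h2 := (Ideal.ramificationIdx'_ne_one_iff hle).1 hne
  obtain ⟨x, hx, hx2⟩ := hπ
  exact hx2 (h2 (Ideal.mem_map_of_mem _ hx))

/-- The valuations agree on `K`. -/
theorem val_eq_h116
    (hvw : ∀ x : 𝓞 K, x ∈ v.asIdeal ↔ algebraMap (𝓞 K) (𝓞 K') x ∈ w.asIdeal)
    (hπ : ∃ x : 𝓞 K, x ∈ v.asIdeal ∧ algebraMap (𝓞 K) (𝓞 K') x ∉ w.asIdeal ^ 2) (x : K) :
    w.valuation K' (algebraMap K K' x) = v.valuation K x := by
  have := liesOver_h116 v w hvw
  have h := HeightOneSpectrum.valuation_liesOver (K := K) K' v w x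
  rw [ramIdx_eq_one_h116 v w hvw hπ, pow_one] at h
  exact h.symm

/-- Residue fields agree: every integer of `K'` is congruent mod `w` to an integer of `K`. -/
theorem res_surj_h116
    (hvw : ∀ x : 𝓞 K, x ∈ v.asIdeal ↔ algebraMap (𝓞 K) (𝓞 K') x ∈ w.asIdeal)
    (hN : Ideal.absNorm w.asIdeal = Ideal.absNorm v.asIdeal) (b : 𝓞 K') :
    ∃ a : 𝓞 K, algebraMap (𝓞 K) (𝓞 K') a - b ∈ w.asIdeal := by
  have hle : v.asIdeal ≤ Ideal.comap (algebraMap (𝓞 K) (𝓞 K')) w.asIdeal := fun x hx =>
    (hvw x).1 hx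
  have hinj : Function.Injective (Ideal.quotientMap w.asIdeal (algebraMap (𝓞 K) (𝓞 K')) hle) :=
    Ideal.quotientMap_injective' (fun x hx => (hvw x).2 hx)
  have : Finite (𝓞 K' ⧸ w.asIdeal) := w.asIdeal.finiteQuotientOfFreeOfNeBot w.ne_bot
  have hcard : Nat.card (𝓞 K' ⧸ w.asIdeal) ≤ Nat.card (𝓞 K ⧸ v.asIdeal) := by
    rw [← Submodule.cardQuot_apply, ← Submodule.cardQuot_apply, ← Ideal.absNorm_apply,
      ← Ideal.absNorm_apply, hN]
  obtain ⟨a', ha'⟩ := (hinj.bijective_of_nat_card_le hcard).2 (Ideal.Quotient.mk w.asIdeal b)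
  obtain ⟨a, rfl⟩ := Ideal.Quotient.mk_surjective a'
  refine ⟨a, ?_⟩
  rw [Ideal.quotientMap_mk] at ha'
  exact Ideal.Quotient.eq.1 ha'

/-- Residue approximation in the field. -/
theorem res_approx_h116
    (hvw : ∀ x : 𝓞 K, x ∈ v.asIdeal ↔ algebraMap (𝓞 K) (𝓞 K') x ∈ w.asIdeal)
    (hN : Ideal.absNorm w.asIdeal = Ideal.absNorm v.asIdeal) (z : K')
    (hz : w.valuation K' z ≤ 1) :
    ∃ a : K, w.valuation K' (z - algebraMap K K' a) < 1 := by
  obtain ⟨b, hb⟩ := HeightOneSpectrum.exists_valuation_sub_lt_of_integer w hz 1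
  obtain ⟨a, ha⟩ := res_surj_h116 v w hvw hN b
  refine ⟨algebraMap (𝓞 K) K a, ?_⟩
  have h1 : w.valuation K' (algebraMap (𝓞 K') K' (algebraMap (𝓞 K) (𝓞 K') a - b)) < 1 :=
    (HeightOneSpectrum.valuation_lt_one_iff_mem w _).2 ha
  have e : z - algebraMap K K' (algebraMap (𝓞 K) K a)
      = -((algebraMap (𝓞 K') K' b - z)
          + algebraMap (𝓞 K') K' (algebraMap (𝓞 K) (𝓞 K') a - b)) := by
    rw [map_sub, ← IsScalarTower.algebraMap_apply (𝓞 K) K K',
      ← IsScalarTower.algebraMap_apply (𝓞 K) (𝓞 K') K']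
    ring
  rw [e, Valuation.map_neg]
  exact lt_of_le_of_lt (Valuation.map_add _ _ _) (max_lt (by simpa using hb) h1)

/-- A common uniformiser. -/
theorem unif_h116
    (hvw : ∀ x : 𝓞 K, x ∈ v.asIdeal ↔ algebraMap (𝓞 K) (𝓞 K') x ∈ w.asIdeal)
    (hπ : ∃ x : 𝓞 K, x ∈ v.asIdeal ∧ algebraMap (𝓞 K) (𝓞 K') x ∉ w.asIdeal ^ 2) :
    ∃ p : K, w.valuation K' (algebraMap K K' p) = exp (-1 : ℤ) := by
  obtain ⟨x, hx, hx2⟩ := hπ
  refine ⟨algebraMap (𝓞 K) K x, ?_⟩
  rw [← IsScalarTower.algebraMap_apply (𝓞 K) K K',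
    IsScalarTower.algebraMap_apply (𝓞 K) (𝓞 K') K', HeightOneSpectrum.valuation_of_algebraMap]
  have h1 : w.intValuation (algebraMap (𝓞 K) (𝓞 K') x) ≤ exp (-((1 : ℕ) : ℤ)) := by
    rw [HeightOneSpectrum.intValuation_le_pow_iff_mem, pow_one]
    exact (hvw x).1 hx
  have h2 : ¬ w.intValuation (algebraMap (𝓞 K) (𝓞 K') x) ≤ exp (-((2 : ℕ) : ℤ)) := by
    rw [HeightOneSpectrum.intValuation_le_pow_iff_mem]
    exact hx2
  have h0 : w.intValuation (algebraMap (𝓞 K) (𝓞 K') x) ≠ 0 := by
    intro h
    rw [h] at h2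
    exact h2 zero_le
  rw [← exp_log h0] at h1 h2 ⊢
  rw [exp_le_exp] at h1 h2
  congr 1
  push_cast at h1 h2
  omega

/-- The valuation of the completion on the image of `K`. -/
theorem valued_algebraMap_h116 (k : K) :
    Valued.v (algebraMap K (v.adicCompletion K) k) = v.valuation K k :=
  HeightOneSpectrum.valuedAdicCompletion_eq_valuation' v k

/-- Density of `K` in `K'_w`. -/
theorem dense_h116
    (happ : ∀ (y : K') (γ : ℤᵐ⁰), γ ≠ 0 → ∃ x : K, w.valuation K' (y - algebraMap K K' x) < γ) :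
    DenseRange ((algebraMap K' (w.adicCompletion K')).comp (algebraMap K K')) := by
  intro y'
  rw [mem_closure_iff_nhds]
  intro t ht
  obtain ⟨γ, hγ, hsub⟩ := (nhds_basis_uniformity'
    (unif_basis_h116 (w.adicCompletion K')
      (HeightOneSpectrum.valuedAdicCompletion_surjective K' w))).mem_iff.1 ht
  have hball : UniformSpace.ball y' {p : w.adicCompletion K' × w.adicCompletion K' |
      Valued.v (p.2 - p.1) < γ} ∈ 𝓝 y' :=
    (nhds_basis_uniformity'
    (unif_basis_h116 (w.adicCompletion K')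
      (HeightOneSpectrum.valuedAdicCompletion_surjective K' w))).mem_of_mem hγ
  obtain ⟨y, hy⟩ := (HeightOneSpectrum.denseRange_algebraMap (K := K') w).mem_nhds hball
  have hy' : Valued.v (algebraMap K' (w.adicCompletion K') y - y') < γ := hy
  obtain ⟨x, hx⟩ := happ y γ hγ
  refine ⟨algebraMap K' (w.adicCompletion K') (algebraMap K K' x), hsub ?_, x, rfl⟩
  change Valued.v (algebraMap K' (w.adicCompletion K') (algebraMap K K' x) - y') < γ
  have e : algebraMap K' (w.adicCompletion K') (algebraMap K K' x) - y'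
      = -(algebraMap K' (w.adicCompletion K') (y - algebraMap K K' x))
        + (algebraMap K' (w.adicCompletion K') y - y') := by
    rw [map_sub]
    ring
  rw [e]
  refine lt_of_le_of_lt (Valuation.map_add _ _ _) (max_lt ?_ hy')
  rw [Valuation.map_neg, valued_algebraMap_h116]
  exact hx

end NumberFields

/-- **T6.03 = T6.01c** (`InstSplitC`): completions at a place of residue degree and ramification
index one are isomorphic. -/
theorem instSplitC_h116 : Fermat.Agent.LT.T6.InstSplitC := by
  intro K K' _ _ _ _ _ v w hvw hN hπ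
  obtain ⟨p, hp⟩ := unif_h116 v w hvw hπ
  have happ : ∀ (y : K') (γ : ℤᵐ⁰), γ ≠ 0 →
      ∃ x : K, w.valuation K' (y - algebraMap K K' x) < γ :=
    approx_h116 (w.valuation K') p hp (res_approx_h116 v w hvw hN)
  obtain ⟨i, hi, hiv⟩ := completion_equiv_h116
    (HeightOneSpectrum.valuedAdicCompletion_surjective K v)
    (HeightOneSpectrum.valuedAdicCompletion_surjective K' w)
    (algebraMap K (v.adicCompletion K))
    ((algebraMap K' (w.adicCompletion K')).comp (algebraMap K K'))
    (HeightOneSpectrum.denseRange_algebraMap (K := K) v)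
    (dense_h116 w happ)
    (fun x => by
      rw [RingHom.comp_apply, valued_algebraMap_h116, valued_algebraMap_h116,
        val_eq_h116 v w hvw hπ])
  exact ⟨i, hi, hiv⟩

end Fermat.Agent.LT.T6.H116
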